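import Fermat.Agent.LT.T7.H616.ClassModelSpec
import Fermat.Agent.LT.T7.H271.Phi

/-!
# Row LT, tower T7, leaf T7.L2.2.N.1 CM.02 `NontrivC616` (helper938)

OFF-MAIN.  `nontrivC938 (K K') : CM616.NontrivC616 K K'`, VERBATIM vs
`T7/H616/ClassModelSpec.lean` (helper616), UNCONDITIONAL: the conclusion is the conclusion of the
CLOSED leaf `H561.PhiC561` (`H271.phiC271`, helper271), the hypotheses are fields of `Ctx616`.
-/

set_option autoImplicit false

noncomputable section

namespace Fermat.Agent.LT.T7.H938

open Fermat.Agent.LT.T7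

/-- **LEAF CM.02 = NON-TRIVIAL** (cut of helper616), from the closed leaf `PhiC561`. -/
theorem nontrivC938 (K K' : Type) [Field K] [NumberField K] [Field K'] [NumberField K']
    [Algebra K K'] : CM616.NontrivC616 K K' :=
  fun ℓ Φ Dt h =>
    H271.phiC271 K K' ℓ h.cyc h.odd h.cplx Φ h.cusp h.const Dt h.data

end Fermat.Agent.LT.T7.H938
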