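import Mathlib
import Fermat.Agent.LT.T7.H561.BlocksSpec
import Fermat.Agent.LT.T7.H76.CuspForm
import Fermat.Agent.LT.T7.H863.WSub
import Fermat.Agent.LT.T7.H128.SubSeq

/-!
# Row LT, tower T7, leaf T7.L2.2.B2 `CompleteC561` (helper938, SPARE of registry row 2274)

OFF-MAIN.  `completeC938 (K K') : H561.CompleteC561 K K'`, VERBATIM vs
`T7/H561/BlocksSpec.lean` (helper561), UNCONDITIONAL.

Route: `S` = the cusp functions of level `𝔑_g` which are orthogonal to `W`; a complete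
orthonormal sequence `h` of `S` (`SD534.SubSeqC`, proof of helper128); the family `v` of the
spectrum of `W`, enumerated by an injection `enc` into `ℕ` and extended by zero; `e₀ (2 m)` = the
extended family, `e₀ (2 k + 1) = h k`.  Parseval: `f = ψ₁ + d`, `ψ₁ ∈ W` (the field `proj_up` of
`IsL2Data`), `d ∈ S`, `‖f‖² = ‖ψ₁‖² + ‖d‖²`.  The hermitian form: `SD534.CuspFormC` (proof of
helper76); the subspaces: `SD534.WSubC` (proof of helper863).
-/

set_option autoImplicit false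
set_option linter.unusedSectionVars false
set_option linter.unusedVariables false

open AutomorphicForm IsDedekindDomain NumberField MeasureTheory
open scoped ComplexConjugate

noncomputable section

namespace Fermat.Agent.LT.T7.H938

open Fermat.Agent.LT Fermat.Agent.LT.H556 Fermat.Agent.LT.H556.A0 Fermat.Agent.LT.T7
open Fermat.Agent.LT.T7.H561

attribute [local instance] Fermat.Agent.LT.T5.instMeasurableSpaceG

section OneField

variable {K : Type} [Field K] [NumberField K]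

/-- The level group is monotone in the level. -/
theorem inLevelGroup_mono938 {𝔫 𝔪 : Ideal (𝓞 K)} (h : 𝔫 ≤ 𝔪) {u : G K}
    (hu : InLevelGroup 𝔫 u) : InLevelGroup 𝔪 u := by
  have hsub : ∀ v : HeightOneSpectrum (𝓞 K), idealClosure 𝔫 v ⊆ idealClosure 𝔪 v :=
    fun v => closure_mono (Set.image_mono h)
  exact ⟨hu.1, fun v i j => ⟨hsub v (hu.2 v i j).1, hsub v (hu.2 v i j).2⟩⟩

/-- A cusp function of level `𝔪` is a cusp function of every smaller level. -/
theorem isCuspFn_level938 {𝔫 𝔪 : Ideal (𝓞 K)} (h : 𝔫 ≤ 𝔪) {τ : G K → ℂ} {r : G K}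
    {e : G K → ℂ} (he : T5.IsCuspFn 𝔪 τ r e) : T5.IsCuspFn 𝔫 τ r e :=
  ⟨he.cont, he.bdd,
    ⟨he.aut.left_inv, fun u hu g => he.aut.level_inv u (inLevelGroup_mono938 h hu) g,
      he.aut.arch_compact, he.aut.ray⟩,
    he.cuspidal⟩

theorem innerD_zero_left938 (μ : Measure (G K)) (F : Set (G K)) (χ : G K → ℂ) :
    T5.innerD μ F (0 : G K → ℂ) χ = 0 := by
  simp [T5.innerD]

theorem innerD_zero_right938 (μ : Measure (G K)) (F : Set (G K)) (χ : G K → ℂ) :
    T5.innerD μ F χ (0 : G K → ℂ) = 0 := by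
  simp [T5.innerD]

/-- **Abstract completion.**  A positive hermitian form `ip` on a class `V` of functions, a
subclass `W` with a projection, a complete orthonormal family `vv` of `W` indexed by a countable
type, and a complete orthonormal sequence `h` (zeros allowed) of `V ∩ W^⊥`: the interleaved
sequence is complete in `V`. -/
theorem exists_interleave938 {X P : Type} [Countable P]
    (ip : (X → ℂ) → (X → ℂ) → ℂ) (V W : (X → ℂ) → Prop)
    (hadd : ∀ f f' f'' : X → ℂ, V f → V f' → V f'' → ip (f + f') f'' = ip f f'' + ip f' f'')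
    (hconj : ∀ f f' : X → ℂ, V f → V f' → ip f' f = conj (ip f f'))
    (hz1 : ∀ χ : X → ℂ, ip 0 χ = 0) (hz2 : ∀ χ : X → ℂ, ip χ 0 = 0)
    (hV0 : V 0)
    (hVadd : ∀ f f' : X → ℂ, V f → V f' → V (f + f'))
    (hVsmul : ∀ (a : ℂ) (f : X → ℂ), V f → V (a • f))
    (hWV : ∀ χ, W χ → V χ)
    (hproj : ∀ f, V f → ∃ ψ₁, W ψ₁ ∧ ∀ χ, W χ → ip (fun x => f x - ψ₁ x) χ = 0)
    (vv : P → X → ℂ) (hvW : ∀ p, W (vv p))
    (hvo : ∀ p q, p ≠ q → ip (vv p) (vv q) = 0) (hvn : ∀ p, ip (vv p) (vv p) = 1)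
    (hvc : ∀ ψ, W ψ → HasSum (fun p => ‖ip ψ (vv p)‖ ^ 2) (ip ψ ψ).re)
    (h : ℕ → X → ℂ) (hhV : ∀ k, V (h k)) (hhW : ∀ k χ, W χ → ip (h k) χ = 0)
    (hho : ∀ k k', k ≠ k' → ip (h k) (h k') = 0)
    (hhn : ∀ k, ip (h k) (h k) = 1 ∨ h k = 0)
    (hhc : ∀ f, V f → (∀ χ, W χ → ip f χ = 0) →
      HasSum (fun k => ‖ip f (h k)‖ ^ 2) (ip f f).re) :
    ∃ (e₀ : ℕ → X → ℂ) (idx : P → ℕ),
      (∀ j, V (e₀ j)) ∧ (∀ i j, i ≠ j → ip (e₀ i) (e₀ j) = 0) ∧
      (∀ j, ip (e₀ j) (e₀ j) = 1 ∨ ∀ x, e₀ j x = 0) ∧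
      (∀ f, V f → HasSum (fun j => ‖ip f (e₀ j)‖ ^ 2) (ip f f).re) ∧
      Function.Injective idx ∧ (∀ p, e₀ (idx p) = vv p) ∧
      ∀ j, (∀ p, idx p ≠ j) → ∀ χ, W χ → ip (e₀ j) χ = 0 := by
  classical
  obtain ⟨enc, henc⟩ := exists_injective_nat P
  -- the family extended by zero
  set ve : ℕ → X → ℂ := Function.extend enc vv 0 with hve
  have hve1 : ∀ p, ve (enc p) = vv p := fun p => henc.extend_apply vv 0 p
  have hve0 : ∀ m, (¬ ∃ p, enc p = m) → ve m = 0 := fun m hm => by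
    rw [hve, Function.extend_apply' _ _ _ hm]; rfl
  have hve_cases : ∀ m, (∃ p, enc p = m ∧ ve m = vv p) ∨ ((¬ ∃ p, enc p = m) ∧ ve m = 0) := by
    intro m
    by_cases hm : ∃ p, enc p = m
    · obtain ⟨p, hp⟩ := hm
      exact Or.inl ⟨p, hp, by rw [← hp]; exact hve1 p⟩
    · exact Or.inr ⟨hm, hve0 m hm⟩
  have hveV : ∀ m, V (ve m) := by
    intro m
    rcases hve_cases m with ⟨p, -, hp⟩ | ⟨-, h0⟩
    · rw [hp]; exact hWV _ (hvW p)
    · rw [h0]; exact hV0
  have hveo : ∀ m m', m ≠ m' → ip (ve m) (ve m') = 0 := by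
    intro m m' hmm
    rcases hve_cases m with ⟨p, hpm, hp⟩ | ⟨-, h0⟩
    · rcases hve_cases m' with ⟨q, hqm, hq⟩ | ⟨-, h0'⟩
      · rw [hp, hq]
        apply hvo
        intro hpq
        apply hmm
        rw [← hpm, ← hqm, hpq]
      · rw [h0']; exact hz2 _
    · rw [h0]; exact hz1 _
  have hve_h : ∀ m k, ip (ve m) (h k) = 0 := by
    intro m k
    rcases hve_cases m with ⟨p, -, hp⟩ | ⟨-, h0⟩
    · rw [hp, hconj (h k) (vv p) (hhV k) (hWV _ (hvW p)), hhW k _ (hvW p), map_zero]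
    · rw [h0]; exact hz1 _
  have hh_ve : ∀ m k, ip (h k) (ve m) = 0 := by
    intro m k
    rcases hve_cases m with ⟨p, -, hp⟩ | ⟨-, h0⟩
    · rw [hp]; exact hhW k _ (hvW p)
    · rw [h0]; exact hz2 _
  -- the interleaved sequence
  set e₀ : ℕ → X → ℂ := fun j => if j % 2 = 0 then ve (j / 2) else h (j / 2) with he₀
  have he_even : ∀ m, e₀ (2 * m) = ve m := by
    intro m
    simp only [he₀]
    rw [if_pos (by omega)]
    congr 1
    omega
  have he_odd : ∀ k, e₀ (2 * k + 1) = h k := by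
    intro k
    simp only [he₀]
    rw [if_neg (by omega)]
    congr 1
    omega
  have hcases : ∀ j, (∃ m, j = 2 * m) ∨ (∃ k, j = 2 * k + 1) := by
    intro j
    rcases Nat.even_or_odd' j with ⟨m, hm | hm⟩
    · exact Or.inl ⟨m, hm⟩
    · exact Or.inr ⟨m, hm⟩
  refine ⟨e₀, fun p => 2 * enc p, ?_, ?_, ?_, ?_, ?_, ?_, ?_⟩
  · intro j
    rcases hcases j with ⟨m, rfl⟩ | ⟨k, rfl⟩
    · rw [he_even]; exact hveV m
    · rw [he_odd]; exact hhV k
  · intro i j hij
    rcases hcases i with ⟨m, rfl⟩ | ⟨k, rfl⟩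
    · rcases hcases j with ⟨m', rfl⟩ | ⟨k', rfl⟩
      · rw [he_even, he_even]
        exact hveo m m' (fun h => hij (by rw [h]))
      · rw [he_even, he_odd]
        exact hve_h m k'
    · rcases hcases j with ⟨m', rfl⟩ | ⟨k', rfl⟩
      · rw [he_odd, he_even]
        exact hh_ve m' k
      · rw [he_odd, he_odd]
        exact hho k k' (fun h => hij (by rw [h]))
  · intro j
    rcases hcases j with ⟨m, rfl⟩ | ⟨k, rfl⟩
    · rw [he_even]
      rcases hve_cases m with ⟨p, -, hp⟩ | ⟨-, h0⟩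
      · left; rw [hp]; exact hvn p
      · right; intro x; rw [h0]; rfl
    · rw [he_odd]
      rcases hhn k with h1 | h0
      · exact Or.inl h1
      · right; intro x; rw [h0]; rfl
  · intro f hf
    obtain ⟨ψ₁, hψ₁, hd⟩ := hproj f hf
    have hψ₁V : V ψ₁ := hWV _ hψ₁
    set d : X → ℂ := fun x => f x - ψ₁ x with hddef
    have hdV : V d := by
      have h1 : d = f + (-1 : ℂ) • ψ₁ := by
        funext x
        simp [hddef, sub_eq_add_neg]
      rw [h1]
      exact hVadd _ _ hf (hVsmul _ _ hψ₁V)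
    have hfd : f = ψ₁ + d := by
      funext x
      simp [hddef]
    have hsplit : ∀ χ, V χ → ip f χ = ip ψ₁ χ + ip d χ := by
      intro χ hχ
      have := hadd ψ₁ d χ hψ₁V hdV hχ
      rw [← hfd] at this
      exact this
    have hdψ : ip d ψ₁ = 0 := hd ψ₁ hψ₁
    have hψd : ip ψ₁ d = 0 := by
      rw [hconj d ψ₁ hdV hψ₁V, hdψ, map_zero]
    have hnorm : (ip f f).re = (ip ψ₁ ψ₁).re + (ip d d).re := by
      have h1 : ip f f = ip ψ₁ f + ip d f := hsplit f hf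
      have h2 : ip ψ₁ f = conj (ip f ψ₁) := hconj f ψ₁ hf hψ₁V
      have h3 : ip d f = conj (ip f d) := hconj f d hf hdV
      have h4 : ip f ψ₁ = ip ψ₁ ψ₁ + ip d ψ₁ := hsplit ψ₁ hψ₁V
      have h5 : ip f d = ip ψ₁ d + ip d d := hsplit d hdV
      rw [h1, h2, h3, h4, h5, hdψ, hψd, add_zero, zero_add, Complex.add_re, Complex.conj_re,
        Complex.conj_re]
    rw [hnorm]
    -- the even part
    have hev : HasSum (fun m => ‖ip f (ve m)‖ ^ 2) (ip ψ₁ ψ₁).re := by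
      have h1 : HasSum (fun p => ‖ip ψ₁ (vv p)‖ ^ 2) (ip ψ₁ ψ₁).re := hvc ψ₁ hψ₁
      have h2 : (fun p => ‖ip ψ₁ (vv p)‖ ^ 2) = (fun m => ‖ip f (ve m)‖ ^ 2) ∘ enc := by
        funext p
        simp only [Function.comp_apply]
        rw [hve1 p, hsplit _ (hWV _ (hvW p)), hd _ (hvW p), add_zero]
      rw [h2] at h1
      refine (henc.hasSum_iff ?_).1 h1
      intro m hm
      have : ¬ ∃ p, enc p = m := fun ⟨p, hp⟩ => hm ⟨p, hp⟩
      rw [hve0 m this, hz2]
      simp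
    have hod : HasSum (fun k => ‖ip f (h k)‖ ^ 2) (ip d d).re := by
      have h1 := hhc d hdV hd
      have h2 : (fun k => ‖ip f (h k)‖ ^ 2) = fun k => ‖ip d (h k)‖ ^ 2 := by
        funext k
        rw [hsplit _ (hhV k), hconj (h k) ψ₁ (hhV k) hψ₁V, hhW k ψ₁ hψ₁, map_zero, zero_add]
      rw [h2]
      exact h1
    have hev' : HasSum (fun m => (fun j => ‖ip f (e₀ j)‖ ^ 2) (2 * m)) (ip ψ₁ ψ₁).re := by
      have : (fun m => (fun j => ‖ip f (e₀ j)‖ ^ 2) (2 * m)) = fun m => ‖ip f (ve m)‖ ^ 2 := by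
        funext m
        simp only [he_even]
      rw [this]
      exact hev
    have hod' : HasSum (fun k => (fun j => ‖ip f (e₀ j)‖ ^ 2) (2 * k + 1)) (ip d d).re := by
      have : (fun k => (fun j => ‖ip f (e₀ j)‖ ^ 2) (2 * k + 1))
          = fun k => ‖ip f (h k)‖ ^ 2 := by
        funext k
        simp only [he_odd]
      rw [this]
      exact hod
    exact HasSum.even_add_odd hev' hod'
  · intro p q hpq
    apply henc
    have : 2 * enc p = 2 * enc q := hpq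
    omega
  · intro p
    show e₀ (2 * enc p) = vv p
    rw [he_even, hve1]
  · intro j hj χ hχ
    rcases hcases j with ⟨m, rfl⟩ | ⟨k, rfl⟩
    · rw [he_even]
      have : ¬ ∃ p, enc p = m := fun ⟨p, hp⟩ => hj p (by show 2 * enc p = 2 * m; rw [hp])
      rw [hve0 m this]
      exact hz1 _
    · rw [he_odd]
      exact hhW k χ hχ

end OneField

section TwoFields

variable (K K' : Type) [Field K] [NumberField K] [Field K'] [NumberField K'] [Algebra K K']

/-- **LEAF T7.L2.2.B2 = COMPLETE** (cut of helper561), VERBATIM, UNCONDITIONAL. -/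
theorem completeC938 : H561.CompleteC561 K K' := by
  intro ℓ hcyc hℓ2 hcplx Φ hΦ hconst Dt hDt g hg ι n C v hW
  have hcomp := hDt.comp g hg
  have hfr : T5.IsFrame Dt.R'.μ Dt.R'.F := hcomp.frame'.frame
  have hray : T5.IsRayGen Dt.R'.r := hcomp.frame'.ray
  have hne : Dt.𝔑 g ≠ ⊥ := by
    show Ideal.map (algebraMap (𝓞 K) (𝓞 K')) (Dt.𝔫 g) ≠ ⊥
    rw [Ne, Ideal.map_eq_bot_iff_of_injective (RingOfIntegers.algebraMap.injective K K')]
    exact hcomp.level_ne
  have hform := H76.cuspFormC76 K' Dt.R'.μ Dt.R'.F Dt.R'.r (Dt.𝔑 g) hne hfr hray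
  have hsub := H863.wSubC_863 K' (Dt.𝔑 g) Dt.R'.r (Dt.o 0)
  have hcount : Countable ι := hW.countable
  have hWV : ∀ χ, IsWFn Dt.𝔑₀ Dt.R'.r ℓ Dt.o χ →
      T5.IsCuspFn (Dt.𝔑 g) T5.trivType Dt.R'.r χ :=
    fun χ h => isCuspFn_level938 (hDt.level_g g hg) h.cusp
  have hV0 : T5.IsCuspFn (Dt.𝔑 g) T5.trivType Dt.R'.r (0 : G K' → ℂ) := hsub.zeroW.cusp
  -- a complete orthonormal sequence of the orthogonal complement of `W`
  obtain ⟨h, hhS, hho, hhn, hhc⟩ := H128.subSeqC128 K' Dt.R'.μ Dt.R'.F Dt.R'.r (Dt.𝔑 g) hne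
    hfr hray
    (fun f => T5.IsCuspFn (Dt.𝔑 g) T5.trivType Dt.R'.r f ∧
      ∀ χ, IsWFn Dt.𝔑₀ Dt.R'.r ℓ Dt.o χ → T5.innerD Dt.R'.μ Dt.R'.F f χ = 0)
    (fun f hf => hf.1) ⟨hV0, fun χ _ => innerD_zero_left938 _ _ _⟩
    (fun f f' hf hf' => ⟨hsub.addV f f' hf.1 hf'.1, fun χ hχ => by
      rw [hform.add_left f f' χ hf.1 hf'.1 (hWV χ hχ), hf.2 χ hχ, hf'.2 χ hχ, add_zero]⟩)
    (fun a f hf => ⟨hsub.smulV a f hf.1, fun χ hχ => by
      rw [hform.smul_left a f χ hf.1 (hWV χ hχ), hf.2 χ hχ, mul_zero]⟩)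
  obtain ⟨e₀, idx, h1, h2, h3, h4, h5, h6, h7⟩ :=
    exists_interleave938 (P := Σ i, Fin (n i)) (T5.innerD Dt.R'.μ Dt.R'.F)
      (fun f => T5.IsCuspFn (Dt.𝔑 g) T5.trivType Dt.R'.r f)
      (fun χ => IsWFn Dt.𝔑₀ Dt.R'.r ℓ Dt.o χ)
      (fun f f' f'' hf hf' hf'' => hform.add_left f f' f'' hf hf' hf'')
      (fun f f' hf hf' => hform.conj_symm f f' hf hf')
      (fun χ => innerD_zero_left938 _ _ χ) (fun χ => innerD_zero_right938 _ _ χ)
      hV0 (fun f f' hf hf' => hsub.addV f f' hf hf') (fun a f hf => hsub.smulV a f hf)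
      hWV (fun f hf => hDt.proj_up g hg f hf)
      (fun p => v p.1 p.2) (fun p => ((hW.basis p.1).eig p.2).inv)
      (by
        rintro ⟨i, a⟩ ⟨i', a'⟩ hpq
        by_cases hi : i = i'
        · subst hi
          have ha : a ≠ a' := fun h => hpq (by rw [h])
          have := (hW.basis i).orth a a'
          rw [if_neg ha] at this
          exact this
        · exact hW.orth i i' a a' hi)
      (by
        rintro ⟨i, a⟩
        have := (hW.basis i).orth a a
        rw [if_pos rfl] at this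
        exact this)
      (fun ψ hψ => hW.complete ψ hψ)
      h (fun k => (hhS k).1) (fun k χ hχ => (hhS k).2 χ hχ) hho hhn
      (fun f hf hf' => hhc f ⟨hf, hf'⟩)
  refine ⟨e₀, fun i a => idx ⟨i, a⟩, ⟨h1, h2, h3, h4⟩, ?_, ?_, ?_⟩
  · intro i a i' a' hia
    exact h5 hia
  · intro i a
    exact h6 ⟨i, a⟩
  · intro j hj χ hχ
    exact h7 j (fun p => hj p.1 p.2) χ hχ

end TwoFields

end Fermat.Agent.LT.T7.H938
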