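import Mathlib
import Fermat.Agent.LT.T7.H305.MatchCut

/-!
# Row LT, tower T7, asset "SPLIT-ENUM" (helper938, OFF-MAIN)

`K'/K` cyclic of prime degree `l` with generator `σ` (`CompData`), `v` a finite place of `K` with
at least two places of `K'` over it, unramified.  Then there is an ENUMERATION `w 0, w 1, …` of
the places over `v` in the order of the orbit of `σ` (`w j = σ(w (j+1))`, the form of
`T5.PlaceRel`), `w j ≠ w 0` for `0 < j < l`, with identifications `i j : K_v ≃ K'_{w j}` which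
preserve the valuations:

    exists_enum938 : T6.InstSplitC → IsCompData D → IsCycExt K K' D.l → (two places over v) →
        (v unramified) → ∃ w i, …          (the data of the split clause of `LocHyp893`)

Proof.  `w j = σ^{-j}(w₀)` (`pull938`, `enum938`).  The stabiliser of `w₀` in the Galois group
(prime order) is trivial or everything; it is not everything (the Galois group acts
transitively on the places over `v`: `Algebra.IsInvariant.exists_smul_of_under_eq`), so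
`σ^j w₀ ≠ w₀` for `0 < j < l` (`σ^j ≠ 1`).  Residue degree: the fundamental identity
`g · e · f = l` with `g ≥ 2` gives `f = 1`, `N w = N v`
(`Ideal.absNorm_eq_pow_inertiaDeg'_of_liesOver`); `T6.InstSplitC` gives the identifications.

No hole, nothing assumed.  ADDITIVE (suffix `938`).
-/

set_option autoImplicit false
set_option linter.unusedSectionVars false

open IsDedekindDomain NumberField
open scoped Pointwise

noncomputable section

namespace Fermat.Agent.LT.T7.H938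

open Fermat.Agent.LT.H556 Fermat.Agent.LT.H556.A0 Fermat.Agent.LT.T7 Fermat.Agent.LT

/-! ## 1. The place `σ⁻¹ w` -/

section Pull

variable {K' : Type} [Field K'] [NumberField K']

/-- The place `σ⁻¹ w`. -/
def pull938 (σ : K' ≃+* K') (w : HeightOneSpectrum (𝓞 K')) : HeightOneSpectrum (𝓞 K') :=
  HeightOneSpectrum.comap (RingOfIntegers.mapRingEquiv σ : 𝓞 K' →+* 𝓞 K')
    (RingOfIntegers.mapRingEquiv σ).surjective w

theorem mem_pull938 (σ : K' ≃+* K') (w : HeightOneSpectrum (𝓞 K')) (y : 𝓞 K') :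
    y ∈ (pull938 σ w).asIdeal ↔ RingOfIntegers.mapRingEquiv σ y ∈ w.asIdeal := Iff.rfl

theorem placeRel_pull938 (s : T5.AdelicAut K') (w : HeightOneSpectrum (𝓞 K')) :
    T5.PlaceRel s (pull938 s.σ w) w := by
  unfold T5.PlaceRel
  ext x
  rw [Ideal.mem_map_of_equiv]
  constructor
  · intro hx
    refine ⟨(RingOfIntegers.mapRingEquiv s.σ).symm x, (mem_pull938 _ _ _).2 ?_, by simp⟩
    simpa using hx
  · rintro ⟨y, hy, rfl⟩
    exact (mem_pull938 _ _ _).1 hy

/-- The enumeration `w j = σ^{-j}(w₀)`. -/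
def enum938 (σ : K' ≃+* K') (w₀ : HeightOneSpectrum (𝓞 K')) (j : ℕ) :
    HeightOneSpectrum (𝓞 K') :=
  (pull938 σ)^[j] w₀

theorem enum_zero938 (σ : K' ≃+* K') (w₀ : HeightOneSpectrum (𝓞 K')) : enum938 σ w₀ 0 = w₀ := rfl

theorem enum_succ938 (σ : K' ≃+* K') (w₀ : HeightOneSpectrum (𝓞 K')) (j : ℕ) :
    enum938 σ w₀ (j + 1) = pull938 σ (enum938 σ w₀ j) := by
  unfold enum938
  rw [Function.iterate_succ_apply']

theorem mem_enum938 (σ : K' ≃+* K') (w₀ : HeightOneSpectrum (𝓞 K')) (j : ℕ) (y : 𝓞 K') :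
    y ∈ (enum938 σ w₀ j).asIdeal ↔ (⇑(RingOfIntegers.mapRingEquiv σ))^[j] y ∈ w₀.asIdeal := by
  induction j generalizing y with
  | zero => rfl
  | succ j ih =>
    rw [enum_succ938, mem_pull938, ih, Function.iterate_succ_apply]

theorem coe_iterate938 (σ : K' ≃+* K') (j : ℕ) (y : 𝓞 K') :
    (((⇑(RingOfIntegers.mapRingEquiv σ))^[j] y : 𝓞 K') : K') = (σ ^ j) (y : K') := by
  induction j generalizing y with
  | zero => rfl
  | succ j ih =>
    rw [Function.iterate_succ_apply, ih, RingOfIntegers.mapRingEquiv_apply, pow_succ]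
    rfl

end Pull

/-! ## 2. Two fields -/

section Two

variable {K K' : Type} [Field K] [NumberField K] [Field K'] [NumberField K'] [Algebra K K']

theorem placeOver_pull938 (σ : K' ≃+* K')
    (hfix : ∀ x : K, σ (algebraMap K K' x) = algebraMap K K' x)
    {v : HeightOneSpectrum (𝓞 K)} {w : HeightOneSpectrum (𝓞 K')} (h : PlaceOver K K' v w) :
    PlaceOver K K' v (pull938 σ w) := by
  intro x y hxy
  rw [mem_pull938]
  refine h x (RingOfIntegers.mapRingEquiv σ y) ?_
  rw [RingOfIntegers.mapRingEquiv_apply, hxy, hfix]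

theorem placeOver_enum938 (σ : K' ≃+* K')
    (hfix : ∀ x : K, σ (algebraMap K K' x) = algebraMap K K' x)
    {v : HeightOneSpectrum (𝓞 K)} {w₀ : HeightOneSpectrum (𝓞 K')} (h : PlaceOver K K' v w₀)
    (j : ℕ) : PlaceOver K K' v (enum938 σ w₀ j) := by
  induction j with
  | zero => exact h
  | succ j ih =>
    rw [enum_succ938]
    exact placeOver_pull938 σ hfix ih

/-- The generator as a `K`-algebra automorphism. -/
def sigAlg938 (σ : K' ≃+* K') (hfix : ∀ x : K, σ (algebraMap K K' x) = algebraMap K K' x) :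
    K' ≃ₐ[K] K' :=
  AlgEquiv.ofRingEquiv (f := σ) hfix

theorem sigAlg_pow938 (σ : K' ≃+* K')
    (hfix : ∀ x : K, σ (algebraMap K K' x) = algebraMap K K' x) (j : ℕ) (x : K') :
    (sigAlg938 σ hfix ^ j) x = (σ ^ j) x := by
  induction j generalizing x with
  | zero => rfl
  | succ j ih =>
    rw [pow_succ, pow_succ, AlgEquiv.mul_apply, ih]
    rfl

theorem placeOver_under938 {v : HeightOneSpectrum (𝓞 K)} {w : HeightOneSpectrum (𝓞 K')}
    (h : PlaceOver K K' v w) : v.asIdeal = w.asIdeal.under (𝓞 K) := by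
  rw [Ideal.under_def]
  exact (H557.placeOver_iff_557 v w).1 h

theorem card_gal938 (l : ℕ) (hc : IsCycExt K K' l) : Nat.card (K' ≃ₐ[K] K') = l := by
  have hg := hc.galois
  have hfd : FiniteDimensional K K' := by
    apply Module.finite_of_finrank_pos
    rw [hc.degree]
    exact hc.prime.pos
  rw [IsGalois.card_aut_eq_finrank, hc.degree]

/-- `σ^j w₀ ≠ w₀` for `0 < j < l` at a place with at least two places over it. -/
theorem enum_ne938 (l : ℕ) (hc : IsCycExt K K' l) (σ : K' ≃+* K')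
    (hfix : ∀ x : K, σ (algebraMap K K' x) = algebraMap K K' x)
    (hfaith : ∀ j : ℕ, 0 < j → j < l → ∃ x : K', (σ ^ j) x ≠ x)
    {v : HeightOneSpectrum (𝓞 K)} {w₀ w₁ w₂ : HeightOneSpectrum (𝓞 K')}
    (h0 : PlaceOver K K' v w₀) (h1 : PlaceOver K K' v w₁) (h2 : PlaceOver K K' v w₂)
    (h12 : w₁ ≠ w₂) (j : ℕ) (hj0 : 0 < j) (hjl : j < l) : enum938 σ w₀ j ≠ w₀ := by
  intro heq
  have hg := hc.galois
  have hcard := card_gal938 l hc
  have hp : Fact (Nat.card (K' ≃ₐ[K] K')).Prime := ⟨by rw [hcard]; exact hc.prime⟩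
  rcases Subgroup.eq_bot_or_eq_top_of_prime_card
    (MulAction.stabilizer (K' ≃ₐ[K] K') w₀.asIdeal) with hb | ht
  · have hmem : sigAlg938 σ hfix ^ j ∈ MulAction.stabilizer (K' ≃ₐ[K] K') w₀.asIdeal := by
      rw [MulAction.mem_stabilizer_iff]
      ext x
      rw [Ideal.mem_pointwise_smul_iff_inv_smul_mem]
      have h3 := mem_enum938 σ w₀ j ((sigAlg938 σ hfix ^ j)⁻¹ • x)
      rw [heq] at h3
      rw [h3]
      have h4 : (⇑(RingOfIntegers.mapRingEquiv σ))^[j] ((sigAlg938 σ hfix ^ j)⁻¹ • x) = x := by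
        apply RingOfIntegers.ext
        rw [coe_iterate938, ← sigAlg_pow938 σ hfix]
        show (sigAlg938 σ hfix ^ j) ((sigAlg938 σ hfix ^ j)⁻¹ (x : K')) = (x : K')
        rw [← AlgEquiv.mul_apply, mul_inv_cancel]
        rfl
      rw [h4]
    rw [hb, Subgroup.mem_bot] at hmem
    obtain ⟨x, hx⟩ := hfaith j hj0 hjl
    apply hx
    rw [← sigAlg_pow938 σ hfix, hmem]
    rfl
  · have hall : ∀ g : K' ≃ₐ[K] K', g • w₀.asIdeal = w₀.asIdeal := fun g =>
      MulAction.mem_stabilizer_iff.1 (ht ▸ Subgroup.mem_top g)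
    have hQ : ∀ w : HeightOneSpectrum (𝓞 K'), PlaceOver K K' v w → w = w₀ := by
      intro w hw
      have hunder : w₀.asIdeal.under (𝓞 K) = w.asIdeal.under (𝓞 K) := by
        rw [← placeOver_under938 h0, ← placeOver_under938 hw]
      have hw0 := w₀.isPrime
      have hwp := w.isPrime
      obtain ⟨g, hg⟩ := Algebra.IsInvariant.exists_smul_of_under_eq (𝓞 K) (𝓞 K')
        (K' ≃ₐ[K] K') w₀.asIdeal w.asIdeal hunder
      apply HeightOneSpectrum.ext
      rw [hg, hall g]
    exact h12 ((hQ w₁ h1).trans (hQ w₂ h2).symm)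

/-- The residue degree at a place with at least two places over it is `1`. -/
theorem absNorm_split938 (l : ℕ) (hc : IsCycExt K K' l)
    {v : HeightOneSpectrum (𝓞 K)} {w w₁ w₂ : HeightOneSpectrum (𝓞 K')}
    (hw : PlaceOver K K' v w) (h1 : PlaceOver K K' v w₁) (h2 : PlaceOver K K' v w₂)
    (h12 : w₁ ≠ w₂) : Ideal.absNorm w.asIdeal = Ideal.absNorm v.asIdeal := by
  have hg := hc.galois
  have hcard := card_gal938 l hc
  have hvp := v.isPrime
  have hvm := v.isMaximal
  have hwp := w.isPrime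
  have hwm := w.isMaximal
  have hid := Ideal.ncard_primesOver_mul_ramificationIdxIn_mul_inertiaDegIn v.asIdeal (𝓞 K')
    (K' ≃ₐ[K] K')
  rw [hcard] at hid
  have hmem : ∀ w' : HeightOneSpectrum (𝓞 K'), PlaceOver K K' v w' →
      w'.asIdeal ∈ v.asIdeal.primesOver (𝓞 K') := fun w' hw' =>
    ⟨w'.isPrime, ⟨placeOver_under938 hw'⟩⟩
  have hn0 : (v.asIdeal.primesOver (𝓞 K')).ncard ≠ 0 := by
    intro h
    rw [h, zero_mul] at hid
    exact hc.prime.ne_zero hid.symm
  have hfin := Set.finite_of_ncard_ne_zero hn0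
  have h1lt : 1 < (v.asIdeal.primesOver (𝓞 K')).ncard :=
    (Set.one_lt_ncard_iff hfin).2 ⟨w₁.asIdeal, w₂.asIdeal, hmem w₁ h1, hmem w₂ h2,
      fun h => h12 (HeightOneSpectrum.ext h)⟩
  have hdvd : (v.asIdeal.primesOver (𝓞 K')).ncard ∣ l := ⟨_, hid.symm⟩
  have hnl : (v.asIdeal.primesOver (𝓞 K')).ncard = l :=
    ((Nat.dvd_prime hc.prime).1 hdvd).resolve_left (by omega)
  rw [hnl] at hid
  have hef : v.asIdeal.ramificationIdxIn (𝓞 K') * v.asIdeal.inertiaDegIn (𝓞 K') = 1 :=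
    Nat.eq_of_mul_eq_mul_left hc.prime.pos (by rw [hid, mul_one])
  have hf : v.asIdeal.inertiaDegIn (𝓞 K') = 1 := Nat.eq_one_of_mul_eq_one_left hef
  have hlo : w.asIdeal.LiesOver v.asIdeal := ⟨placeOver_under938 hw⟩
  have h5 := Ideal.absNorm_eq_pow_inertiaDeg'_of_liesOver w.asIdeal v.asIdeal v.isPrime v.ne_bot
  rw [Ideal.inertiaDeg'_eq_inertiaDeg,
    ← Ideal.inertiaDegIn_eq_inertiaDeg v.asIdeal w.asIdeal (K' ≃ₐ[K] K'), hf, pow_one] at h5
  exact h5

/-- **THE ENUMERATION AT A SPLIT PLACE.** -/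
theorem exists_enum938 (hIS : T6.InstSplitC) (D : CompData K K') (hD : IsCompData D)
    (hc : IsCycExt K K' D.l) (v : HeightOneSpectrum (𝓞 K))
    (hsplit : ∃ w₁ w₂ : HeightOneSpectrum (𝓞 K'),
      PlaceOver K K' v w₁ ∧ PlaceOver K K' v w₂ ∧ w₁ ≠ w₂)
    (hun : ∀ w : HeightOneSpectrum (𝓞 K'), PlaceOver K K' v w →
      ∃ x : 𝓞 K, x ∈ v.asIdeal ∧ algebraMap (𝓞 K) (𝓞 K') x ∉ w.asIdeal ^ 2) :
    ∃ (w : ℕ → HeightOneSpectrum (𝓞 K'))
      (i : ∀ j : ℕ, v.adicCompletion K ≃+* (w j).adicCompletion K'),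
      (∀ j : ℕ, PlaceOver K K' v (w j)) ∧ (∀ j : ℕ, T5.PlaceRel D.s (w (j + 1)) (w j)) ∧
      (∀ j : ℕ, 0 < j → j < D.l → w j ≠ w 0) ∧
      (∀ (j : ℕ) (x : K), i j (algebraMap K (v.adicCompletion K) x)
        = algebraMap K' ((w j).adicCompletion K') (algebraMap K K' x)) ∧
      (∀ (j : ℕ) (x : v.adicCompletion K), Valued.v (i j x) = Valued.v x) := by
  obtain ⟨w₁, w₂, h1, h2, h12⟩ := hsplit
  have hfix : ∀ x : K, D.s.σ (algebraMap K K' x) = algebraMap K K' x := fun x =>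
    (hD.cyc.fixed _).1 ((hD.base _).2 ⟨x, rfl⟩)
  have hover : ∀ j : ℕ, PlaceOver K K' v (enum938 D.s.σ w₁ j) :=
    placeOver_enum938 D.s.σ hfix h1
  have hiso : ∀ j : ℕ, ∃ i : v.adicCompletion K ≃+* (enum938 D.s.σ w₁ j).adicCompletion K',
      (∀ x : K, i (algebraMap K (v.adicCompletion K) x)
        = algebraMap K' ((enum938 D.s.σ w₁ j).adicCompletion K') (algebraMap K K' x)) ∧
      ∀ x : v.adicCompletion K, Valued.v (i x) = Valued.v x := fun j =>
    hIS K K' v (enum938 D.s.σ w₁ j) (fun x => hover j x _ rfl)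
      (absNorm_split938 D.l hc (hover j) h1 h2 h12) (hun _ (hover j))
  choose i hi1 hi2 using hiso
  refine ⟨enum938 D.s.σ w₁, i, hover, fun j => ?_, fun j hj0 hjl => ?_, hi1, hi2⟩
  · rw [enum_succ938]
    exact placeRel_pull938 D.s _
  · exact enum_ne938 D.l hc D.s.σ hfix hD.cyc.faithful h1 h1 h2 h12 j hj0 hjl

end Two

end Fermat.Agent.LT.T7.H938
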