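import Mathlib
import Fermat.Agent.LT.T7.H305.MatchCut
import Fermat.Agent.LT.T7.H159.GoodUnitTw

/-!
# Row LT, tower T7, leaf C2.7.11 `UnitMatchC305` (helper938, SPARE, OFF-MAIN)

The fundamental lemma for the unit element, in the form of the local hypotheses: if `T₀ ⊆ T ⊆ S`,
the places outside `T₀` are unramified and the levels are `0` there, then `LocHyp305` for `T`
gives `LocHyp305` for `S` with unit components at the new places.

No hole, nothing assumed.  ADDITIVE (suffix `938`).

    unitMatchC938 (K K') : H305.UnitMatchC305 K K'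

VERBATIM vs `LT/T7/H305/MatchCut.lean` (helper305@56ddcdc02, sha256 0f302b81).

Proof.  Places of `T`: the components are unchanged (a place over `v ∈ T` is in `T'`; a place over
`v ∉ T` is not in `T'`: the place under `w` is unique).  New places `v ∈ S \ T`: the levels are `0`,
the components are the unit elements.  `inv_up`, `inv_down`: `isBiInv_unit159`,
`hasFinSupp_unit159` (helper159).  `split`: the identifications preserve the valuation, so
`unit ∘ i_j = unit`, and `unit * unit = unit` (one coset).  `inert`: `e = 1` (the valuation of the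
element of `UnramOut305` is `exp (-1)` upstairs, `≤ exp (-1)` downstairs, `val_i`); the residue
fields have `q` and `q ^ l` elements (`T6.InstLocalC`, and `N w = N v ^ (l / e')` from
`T6.InstExtC` for a generator of the Galois group, `e' = 1` for the same reason);
`T6.FundLemmaC` for the unit element (`isBC_unitFn159`).
-/

set_option autoImplicit false
set_option linter.unusedSectionVars false

open AutomorphicForm IsDedekindDomain NumberField MeasureTheory
open scoped ComplexConjugate

noncomputable section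

namespace Fermat.Agent.LT.T7.H938

open Fermat.Agent.LT.H556 Fermat.Agent.LT.H556.A0 Fermat.Agent.LT.T7 Fermat.Agent.LT.T7.H305
open Fermat.Agent.LT

/-! ## 1. The unit element of an abstract local field -/

section Local

variable {k : Type} [Field k] [Valued k T6.Γ₀]

theorem unit_eq938 :
    (unit305 : GL (Fin 2) k → ℂ) = fun g => H159.unitFn159 (T6.cartan g) := by
  classical
  funext g
  rw [H159.unitFn_apply159 g]
  unfold unit305
  congr

theorem isBiInv_unit938 : T6.IsBiInv (T6.InU 0) (unit305 : GL (Fin 2) k → ℂ) := by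
  rw [unit_eq938]
  exact H159.isBiInv_unit159

theorem hasFinSupp_unit938 : T6.HasFinSupp (T6.InU 0) (unit305 : GL (Fin 2) k → ℂ) := by
  rw [unit_eq938]
  exact H159.hasFinSupp_unit159

theorem inU_one938 : T6.InU 0 (1 : GL (Fin 2) k) := by
  intro i j
  simp

theorem unit_of_inU938 (g : GL (Fin 2) k) (h : T6.InU 0 g) : unit305 g = 1 := by
  classical
  unfold unit305
  rw [if_pos h]

theorem inU_of_unit_ne938 (g : GL (Fin 2) k) (h : unit305 g ≠ 0) : T6.InU 0 g := by
  classical
  by_contra hn
  apply h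
  unfold unit305
  rw [if_neg hn]

theorem isConv_unit938 :
    T6.IsConv (T6.InU 0) (unit305 : GL (Fin 2) k → ℂ) unit305 unit305 := by
  intro g
  refine ⟨{1}, ?_, ?_, ?_⟩
  · intro h hh h' hh' _
    rw [Finset.mem_singleton] at hh hh'
    rw [hh, hh']
  · intro h hne
    have h1 : unit305 h ≠ 0 := left_ne_zero_of_mul hne
    exact ⟨1, Finset.mem_singleton_self _, h, inU_of_unit_ne938 h h1, by simp⟩
  · rw [Finset.sum_singleton, unit_of_inU938 1 inU_one938]
    simp

theorem isConvProd_unit938 (l : ℕ) :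
    T6.IsConvProd (T6.InU 0) l (fun _ => (unit305 : GL (Fin 2) k → ℂ)) unit305 :=
  ⟨fun _ => unit305, rfl, fun _ _ => isConv_unit938, rfl⟩

end Local

section LocalMap

variable {k k' : Type} [Field k] [Valued k T6.Γ₀] [Field k'] [Valued k' T6.Γ₀]

theorem inU_map_iff938 (i : k ≃+* k') (hi : ∀ x : k, Valued.v (i x) = Valued.v x)
    (g : GL (Fin 2) k) :
    T6.InU 0 (Matrix.GeneralLinearGroup.map (i : k →+* k') g) ↔ T6.InU 0 g := by
  have e1 : ∀ (h : GL (Fin 2) k) (a b : Fin 2),
      ((Matrix.GeneralLinearGroup.map (i : k →+* k') h : GL (Fin 2) k') :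
          Matrix (Fin 2) (Fin 2) k') a b - (1 : Matrix (Fin 2) (Fin 2) k') a b
        = i ((h : Matrix (Fin 2) (Fin 2) k) a b - (1 : Matrix (Fin 2) (Fin 2) k) a b) := by
    intro h a b
    rw [map_sub]
    congr 1
    by_cases hab : a = b
    · subst hab; simp
    · simp [Matrix.one_apply_ne hab]
  have e2 : (Matrix.GeneralLinearGroup.map (i : k →+* k') g)⁻¹
      = Matrix.GeneralLinearGroup.map (i : k →+* k') g⁻¹ := (map_inv _ g).symm
  unfold T6.InU
  constructor
  · intro h a b
    have := h a b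
    rw [e2, e1 g a b, e1 g⁻¹ a b, hi, hi] at this
    exact this
  · intro h a b
    rw [e2, e1 g a b, e1 g⁻¹ a b, hi, hi]
    exact h a b

theorem unit_map938 (i : k ≃+* k') (hi : ∀ x : k, Valued.v (i x) = Valued.v x)
    (g : GL (Fin 2) k) :
    unit305 (Matrix.GeneralLinearGroup.map (i : k →+* k') g) = unit305 g := by
  classical
  unfold unit305
  by_cases h : T6.InU 0 g
  · rw [if_pos h, if_pos ((inU_map_iff938 i hi g).2 h)]
  · rw [if_neg h, if_neg (fun h' => h ((inU_map_iff938 i hi g).1 h'))]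

end LocalMap

/-! ## 2. Places over a place, unramified places -/

section Global

variable {K K' : Type} [Field K] [NumberField K] [Field K'] [NumberField K'] [Algebra K K']

theorem exp_pow_le938 (a : WithZero (Multiplicative ℤ)) (ha : a ≤ WithZero.exp (-1 : ℤ)) (e : ℕ)
    (he : 2 ≤ e) : a ^ e ≤ WithZero.exp (-(2 : ℕ) : ℤ) := by
  have h1 : a ^ e ≤ (WithZero.exp (-1 : ℤ)) ^ e := pow_le_pow_left' ha e
  refine h1.trans ?_
  rw [← WithZero.exp_nsmul, WithZero.exp_le_exp]
  simp
  omega

omit [Field K'] [NumberField K'] [Algebra K K'] in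
theorem valued_alg938 (v : HeightOneSpectrum (𝓞 K)) (x : 𝓞 K) :
    Valued.v (algebraMap K (v.adicCompletion K) (x : K)) = v.intValuation x := by
  have := HeightOneSpectrum.valuedAdicCompletion_eq_valuation' (K := K) v (x : K)
  rw [HeightOneSpectrum.valuation_of_algebraMap] at this
  exact this

theorem placeOver_mem938 {v : HeightOneSpectrum (𝓞 K)} {w : HeightOneSpectrum (𝓞 K')}
    (h : PlaceOver K K' v w) (x : 𝓞 K) :
    x ∈ v.asIdeal ↔ algebraMap (𝓞 K) (𝓞 K') x ∈ w.asIdeal :=
  h x (algebraMap (𝓞 K) (𝓞 K') x) rfl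

theorem placeOver_unique938 {v v' : HeightOneSpectrum (𝓞 K)} {w : HeightOneSpectrum (𝓞 K')}
    (h : PlaceOver K K' v w) (h' : PlaceOver K K' v' w) : v = v' := by
  apply HeightOneSpectrum.ext
  rw [(H557.placeOver_iff_557 v w).1 h, (H557.placeOver_iff_557 v' w).1 h']

theorem placeOver_of_le938 {v : HeightOneSpectrum (𝓞 K)} {w : HeightOneSpectrum (𝓞 K')}
    (h : ∀ x : 𝓞 K, x ∈ v.asIdeal → algebraMap (𝓞 K) (𝓞 K') x ∈ w.asIdeal) :
    PlaceOver K K' v w := by
  rw [H557.placeOver_iff_557]
  have hw := w.isPrime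
  have hle : v.asIdeal ≤ Ideal.comap (algebraMap (𝓞 K) (𝓞 K')) w.asIdeal := fun x hx =>
    Ideal.mem_comap.2 (h x hx)
  have hprime : (Ideal.comap (algebraMap (𝓞 K) (𝓞 K')) w.asIdeal).IsPrime :=
    Ideal.comap_isPrime _ _
  exact v.isMaximal.eq_of_le hprime.ne_top hle

/-- At an unramified place the ramification index of a local extension datum is `1`. -/
theorem e_eq_one938 {v : HeightOneSpectrum (𝓞 K)} {w : HeightOneSpectrum (𝓞 K')}
    (hun : ∃ x : 𝓞 K, x ∈ v.asIdeal ∧ algebraMap (𝓞 K) (𝓞 K') x ∉ w.asIdeal ^ 2)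
    (e : ℕ) (he : 0 < e) (i : v.adicCompletion K →+* w.adicCompletion K')
    (hi : ∀ x : K, i (algebraMap K (v.adicCompletion K) x)
        = algebraMap K' (w.adicCompletion K') (algebraMap K K' x))
    (hval : ∀ x : v.adicCompletion K, Valued.v (i x) = Valued.v x ^ e) : e = 1 := by
  obtain ⟨x, hx, hx2⟩ := hun
  by_contra hne
  have he2 : 2 ≤ e := by omega
  apply hx2
  rw [← HeightOneSpectrum.intValuation_le_pow_iff_mem]
  have h1 : Valued.v (algebraMap K (v.adicCompletion K) (x : K)) = v.intValuation x :=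
    valued_alg938 v x
  have h2 : Valued.v (algebraMap K' (w.adicCompletion K')
      ((algebraMap (𝓞 K) (𝓞 K') x : 𝓞 K') : K'))
        = w.intValuation (algebraMap (𝓞 K) (𝓞 K') x) := valued_alg938 w _
  have h3 := hval (algebraMap K (v.adicCompletion K) (x : K))
  rw [hi, h1] at h3
  have h4 : ((algebraMap (𝓞 K) (𝓞 K') x : 𝓞 K') : K') = algebraMap K K' (x : K) := rfl
  rw [h4, h3] at h2
  rw [← h2]
  apply exp_pow_le938 _ _ e he2
  have h5 := (HeightOneSpectrum.intValuation_le_pow_iff_mem v x 1).2 (by simpa using hx)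
  simpa using h5

theorem exists_gen938 (l : ℕ) (hc : IsCycExt K K' l) :
    ∃ s : K' ≃ₐ[K] K', ∀ t : K' ≃ₐ[K] K', t ∈ Subgroup.zpowers s := by
  have hg := hc.galois
  have hfd : FiniteDimensional K K' := by
    apply Module.finite_of_finrank_pos
    rw [hc.degree]
    exact hc.prime.pos
  have hp : Fact l.Prime := ⟨hc.prime⟩
  have hcard : Nat.card (K' ≃ₐ[K] K') = l := by
    rw [IsGalois.card_aut_eq_finrank, hc.degree]
  have hcyc : IsCyclic (K' ≃ₐ[K] K') := isCyclic_of_prime_card hcard
  exact IsCyclic.exists_generator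

/-- The local fields at an unramified place with one place over it. -/
theorem inert_data938 (hIL : T6.InstLocalC) (hIE : T6.InstExtC) (l : ℕ) (hc : IsCycExt K K' l)
    {v : HeightOneSpectrum (𝓞 K)} {w : HeightOneSpectrum (𝓞 K')} (hvw : PlaceOver K K' v w)
    (huniq : ∀ w' : HeightOneSpectrum (𝓞 K'), PlaceOver K K' v w' → w' = w)
    (hun : ∃ x : 𝓞 K, x ∈ v.asIdeal ∧ algebraMap (𝓞 K) (𝓞 K') x ∉ w.asIdeal ^ 2) :
    T6.IsLocalField (v.adicCompletion K) (Ideal.absNorm v.asIdeal) ∧
      T6.IsLocalField (w.adicCompletion K') (Ideal.absNorm v.asIdeal ^ l) := by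
  refine ⟨hIL K v, ?_⟩
  obtain ⟨s, hs⟩ := exists_gen938 l hc
  have hg := hc.galois
  have hprime : (Module.finrank K K').Prime := by rw [hc.degree]; exact hc.prime
  obtain ⟨e', i', sw', hi', -, hext', hN⟩ := hIE K K' s hs hprime v w (placeOver_mem938 hvw)
    (fun w' hw' => huniq w' (placeOver_of_le938 hw'))
  have he' : e' = 1 := e_eq_one938 hun e' hext'.e_pos i' hi' hext'.val_i
  rw [he', Nat.div_one, hc.degree] at hN
  rw [← hN]
  exact hIL K' w

end Global

/-! ## 3. The leaf -/

variable (K K' : Type) [Field K] [NumberField K] [Field K'] [NumberField K'] [Algebra K K']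

/-- **LEAF C2.7.11 = UNIT-MATCH** (VERBATIM `H305.UnitMatchC305`). -/
theorem unitMatchC938 : H305.UnitMatchC305 K K' := by
  intro hT6 D _ hc _ _ μc _ T₀ hun n m hlev T S T' S' hT₀T _ hTT' _ φ₀ Φ f₀ F hyp
  obtain ⟨_, _, _, _, _, hIL, hIE, _, _, _, _, _, _, hFL, _⟩ := hT6
  classical
  have hup : ∀ w, w ∈ T' → ext305 T' φ₀ w = φ₀ w := fun w hw => by
    unfold ext305; rw [if_pos hw]
  have hup' : ∀ w, w ∉ T' → ext305 T' φ₀ w = unit305 := fun w hw => by
    unfold ext305; rw [if_neg hw]
  have hdn : ∀ v, v ∈ T → ext305 T f₀ v = f₀ v := fun v hv => by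
    unfold ext305; rw [if_pos hv]
  have hdn' : ∀ v, v ∉ T → ext305 T f₀ v = unit305 := fun v hv => by
    unfold ext305; rw [if_neg hv]
  have hT'_of : ∀ v ∈ T, ∀ w, PlaceOver K K' v w → w ∈ T' := fun v hv w hvw =>
    (hTT' w).2 ⟨v, hv, hvw⟩
  have hT'_not : ∀ v, v ∉ T → ∀ w, PlaceOver K K' v w → w ∉ T' := by
    intro v hv w hvw hw
    obtain ⟨v', hv', hv'w⟩ := (hTT' w).1 hw
    exact hv (placeOver_unique938 hv'w hvw ▸ hv')
  have hm0 : ∀ v, v ∉ T → m v = 0 := fun v hv => hlev.1 v (fun h => hv (hT₀T h))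
  have hn0 : ∀ v, v ∉ T → ∀ w, PlaceOver K K' v w → n w = 0 := fun v hv w hvw =>
    hlev.2 v w (fun h => hv (hT₀T h)) hvw
  refine { inv_up := ?_, inv_down := ?_, arch_up := hyp.arch_up, arch_down := hyp.arch_down,
           inert := ?_, split := ?_, arch := hyp.arch }
  · intro v _ w hvw
    by_cases hv : v ∈ T
    · rw [hup w (hT'_of v hv w hvw)]
      exact hyp.inv_up v hv w hvw
    · rw [hup' w (hT'_not v hv w hvw), hn0 v hv w hvw]
      exact ⟨isBiInv_unit938, hasFinSupp_unit938⟩
  · intro v _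
    by_cases hv : v ∈ T
    · rw [hdn v hv]
      exact hyp.inv_down v hv
    · rw [hdn' v hv, hm0 v hv]
      exact ⟨isBiInv_unit938, hasFinSupp_unit938⟩
  · intro v _ w hvw huniq e i sw hi hsw hext
    by_cases hv : v ∈ T
    · rw [hup w (hT'_of v hv w hvw), hdn v hv]
      exact hyp.inert v hv w hvw huniq e i sw hi hsw hext
    · rw [hup' w (hT'_not v hv w hvw), hdn' v hv, hn0 v hv w hvw, hm0 v hv]
      have hunr := hun v (fun h => hv (hT₀T h)) w hvw
      have he : e = 1 := e_eq_one938 hunr e hext.e_pos i hi hext.val_i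
      subst he
      obtain ⟨hk, hk'⟩ := inert_data938 hIL hIE D.l hc hvw huniq hunr
      rw [unit_eq938, unit_eq938]
      exact ⟨fun δ γ c c' hreg hconj hc1 hc2 =>
          hFL.1 _ _ _ D.l i sw hk hk' hext hc.prime _ _ H159.isDominant_unitFn159
            H159.isDominant_unitFn159 (H159.isBC_unitFn159 _ _) δ γ c c' hreg trivial hconj
            hc1 hc2,
        fun γ c' hreg hnn hc2 =>
          hFL.2 _ _ _ D.l i sw hk hk' hext hc.prime _ _ H159.isDominant_unitFn159
            H159.isDominant_unitFn159 (H159.isBC_unitFn159 _ _) γ c' hreg hnn hc2⟩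
  · intro v _ w i hw hrel hne hi hval
    by_cases hv : v ∈ T
    · have e1 : (fun (j : ℕ) (g : GL (Fin 2) (v.adicCompletion K)) =>
          ext305 T' φ₀ (w j) (Matrix.GeneralLinearGroup.map
            ((i j : v.adicCompletion K ≃+* _) : v.adicCompletion K →+* (w j).adicCompletion K') g))
          = fun j g => φ₀ (w j) (Matrix.GeneralLinearGroup.map
            ((i j : v.adicCompletion K ≃+* _) : v.adicCompletion K →+* (w j).adicCompletion K') g) := by
        funext j g
        rw [hup (w j) (hT'_of v hv (w j) (hw j))]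
      rw [e1, hdn v hv]
      exact hyp.split v hv w i hw hrel hne hi hval
    · refine ⟨fun j => by rw [hn0 v hv (w j) (hw j), hm0 v hv], ?_⟩
      have e1 : (fun (j : ℕ) (g : GL (Fin 2) (v.adicCompletion K)) =>
          ext305 T' φ₀ (w j) (Matrix.GeneralLinearGroup.map
            ((i j : v.adicCompletion K ≃+* _) : v.adicCompletion K →+* (w j).adicCompletion K') g))
          = fun _ => unit305 := by
        funext j g
        rw [hup' (w j) (hT'_not v hv (w j) (hw j)), unit_map938 (i j) (hval j) g]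
      rw [e1, hdn' v hv, hm0 v hv]
      exact isConvProd_unit938 D.l

example : H305.UnitMatchC305 K K' := unitMatchC938 K K'

end Fermat.Agent.LT.T7.H938
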